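import Fermat.Agent.S35.G.SpecLevel
import Fermat.Agent.A2.IF.H429.IF

/-!
# S35, piece (G') — leaf IFs (helper305, subtask 676): Frobenius-stable good levels

`ifsStatement : IFsStatement`.  The good level of helper429, `level A S = ℚ̄^{I_A}(conjugates of S)`
(`A2.IF.H429.goodField_level`), is stable under every element `s` of the decomposition group of
`A`: the inertia group is normal in the decomposition group, so `s` preserves the inertia field,
and the set of all `ℚ`-conjugates of `S` is stable under every automorphism.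
-/

set_option autoImplicit false
set_option linter.style.haveILetI false

namespace Fermat.Agent.S35.G.H305

open Fermat.Agent.A2 Fermat.Agent.A2.IF.H429
open Fermat.Agent.S55.Bridge Fermat.Agent.S55.Bridge.H594

attribute [local instance] isAlgebraic_Qbar isGalois_Qbar

local notation "Qb" => AlgebraicClosure ℚ

variable (P : ValuationSubring Qb)

/-- The inertia group is normal in the decomposition group. -/
theorem conj_mem_inertia_of_decomp {s τ : Qb ≃ₐ[ℚ] Qb} (hs : s ∈ P.decompositionSubgroup ℚ)
    (hτ : τ ∈ P.inertiaSubgroupIn ℚ) : s * τ * s⁻¹ ∈ P.inertiaSubgroupIn ℚ := by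
  rw [mem_inertiaSubgroupIn_iff_forall P]
  have hsi : s⁻¹ ∈ P.decompositionSubgroup ℚ := inv_mem hs
  refine ⟨mul_mem (mul_mem hs (decomp_of_inertia P hτ)) hsi, fun x hx => ?_⟩
  have h1 : s⁻¹ x ∈ P := mem_of_mem_decomp P hsi hx
  have h2 : τ (s⁻¹ x) - s⁻¹ x ∈ P.nonunits := sub_mem_nonunits_of_inertia P hτ h1
  have h3 := mem_nonunits_of_mem_decomp P hs h2
  have h4 : s (τ (s⁻¹ x) - s⁻¹ x) = (s * τ * s⁻¹) x - x := by
    rw [map_sub]
    have : s (s⁻¹ x) = x := by
      show (s * s⁻¹) x = x
      rw [mul_inv_cancel]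
      rfl
    rw [this]
    rfl
  rwa [h4] at h3

/-- The decomposition group preserves the inertia field. -/
theorem map_mem_inertiaField {s : Qb ≃ₐ[ℚ] Qb} (hs : s ∈ P.decompositionSubgroup ℚ) {x : Qb}
    (hx : x ∈ inertiaField P) : s x ∈ inertiaField P := by
  rw [mem_inertiaField_iff] at hx ⊢
  intro τ hτ
  have h1 : s⁻¹ * τ * s⁻¹⁻¹ ∈ P.inertiaSubgroupIn ℚ :=
    conj_mem_inertia_of_decomp P (inv_mem hs) hτ
  rw [inv_inv] at h1
  have h2 := hx _ h1
  have h3 : τ (s x) = s ((s⁻¹ * τ * s) x) := by
    show τ (s x) = (s * (s⁻¹ * τ * s)) x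
    rw [mul_assoc, mul_inv_cancel_left]
    rfl
  rw [h3, h2]

/-- The level of helper429 is stable under the decomposition group. -/
theorem level_stable_decomp (S : Finset Qb) {s : Qb ≃ₐ[ℚ] Qb}
    (hs : s ∈ P.decompositionSubgroup ℚ) {x : Qb} (hx : x ∈ level P S) : s x ∈ level P S := by
  rw [mem_level_iff] at hx ⊢
  unfold level₁ at hx ⊢
  induction hx using IntermediateField.adjoin_induction with
  | mem x hx => exact IntermediateField.subset_adjoin _ _ (map_mem_conjSet S s hx)
  | algebraMap x =>
    exact (IntermediateField.adjoin (inertiaField P) (conjSet S)).algebraMap_mem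
      ⟨s x, map_mem_inertiaField P hs x.2⟩
  | add x y _ _ hx hy => rw [map_add]; exact add_mem hx hy
  | inv x _ hx => rw [map_inv₀]; exact inv_mem hx
  | mul x y _ _ hx hy => rw [map_mul]; exact mul_mem hx hy

end Fermat.Agent.S35.G.H305

namespace Fermat.Agent.S35.G.H305

open Fermat.Agent.A2 Fermat.Agent.A2.IF.H429

/-- **IFs** (interface statement of `S35/G/SpecLevel.lean`). -/
theorem ifsStatement : Fermat.Agent.S35.G.IFsStatement := fun q hq A hA _ hs S =>
  ⟨level A S, fun _ hx => mem_level_of_mem A S hx, goodField_level q hq A hA S,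
    fun _ he => ⟨level_stable_decomp A S hs he, level_stable_decomp A S (inv_mem hs) he⟩⟩

end Fermat.Agent.S35.G.H305
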